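import Mathlib

/-!
# S28, package M5: the subalgebra generated by a transcendental element

For a UFD `R`, a field `F` over `R` and `t : F` transcendental over `R`, the subalgebra
`Algebra.adjoin R {t}` is a polynomial ring: a UFD in which primes of `R` stay prime and do not
divide powers of `t`.  Also: integrality over `Algebra.adjoin R S` only depends on the integral
closure of that subalgebra.
-/

set_option autoImplicit false

namespace Fermat.Agent.S28.H41

open Polynomial

section Transfer

variable {R F : Type*} [CommRing R] [Field F] [Algebra R F]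

/-- If every generator in `S` is integral over `Algebra.adjoin R S'`, then every element integral
over `Algebra.adjoin R S` is integral over `Algebra.adjoin R S'`. -/
theorem isIntegral_adjoin_of_forall_isIntegral {S S' : Set F}
    (h : ∀ s ∈ S, IsIntegral (Algebra.adjoin R S') s) {x : F}
    (hx : IsIntegral (Algebra.adjoin R S) x) : IsIntegral (Algebra.adjoin R S') x := by
  set C := integralClosure (Algebra.adjoin R S') F with hC
  have hle : Algebra.adjoin R S ≤ C.restrictScalars R := by
    refine Algebra.adjoin_le fun s hs => ?_
    exact h s hs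
  have hxC : IsIntegral C x := by
    have h1 := hx.map_of_comp_eq (Subalgebra.inclusion hle).toRingHom (RingHom.id F)
      (by ext; rfl)
    exact h1
  exact isIntegral_trans (R := Algebra.adjoin R S') (A := C) x hxC

end Transfer

section Adjoin

variable {R F : Type*} [CommRing R] [Field F] [Algebra R F]

/-- The polynomial ring over `R` is the subalgebra generated by a transcendental element. -/
noncomputable def adjoinEquiv {t : F} (ht : Transcendental R t) :
    R[X] ≃ₐ[R] Algebra.adjoin R {t} :=
  (AlgEquiv.ofInjective (aeval t) (transcendental_iff_injective.mp ht)).trans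
    (Subalgebra.equivOfEq _ _ (Algebra.adjoin_singleton_eq_range_aeval R t).symm)

theorem coe_adjoinEquiv {t : F} (ht : Transcendental R t) (p : R[X]) :
    ((adjoinEquiv ht p : Algebra.adjoin R {t}) : F) = aeval t p := rfl

theorem adjoinEquiv_C {t : F} (ht : Transcendental R t) (r : R) :
    adjoinEquiv ht (C r) = algebraMap R (Algebra.adjoin R {t}) r :=
  (adjoinEquiv ht).commutes r

theorem adjoinEquiv_X_pow {t : F} (ht : Transcendental R t) (k : ℕ) :
    adjoinEquiv ht (X ^ k) = (⟨t, Algebra.subset_adjoin rfl⟩ : Algebra.adjoin R {t}) ^ k := by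
  apply Subtype.ext
  rw [coe_adjoinEquiv, map_pow, aeval_X, SubmonoidClass.coe_pow]

theorem uniqueFactorizationMonoid_adjoin [UniqueFactorizationMonoid R] {t : F}
    (ht : Transcendental R t) : UniqueFactorizationMonoid (Algebra.adjoin R {t}) :=
  (adjoinEquiv ht).toMulEquiv.uniqueFactorizationMonoid inferInstance

theorem prime_algebraMap_adjoin {t : F} (ht : Transcendental R t) {π : R} (hπ : Prime π) :
    Prime (algebraMap R (Algebra.adjoin R {t}) π) := by
  rw [← adjoinEquiv_C ht]
  exact (MulEquiv.prime_iff (adjoinEquiv ht).toMulEquiv).mpr (prime_C_iff.mpr hπ)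

theorem not_algebraMap_dvd_gen_pow {t : F} (ht : Transcendental R t) {π : R} (hπ : Prime π)
    (k : ℕ) : ¬ algebraMap R (Algebra.adjoin R {t}) π ∣
      (⟨t, Algebra.subset_adjoin rfl⟩ : Algebra.adjoin R {t}) ^ k := by
  rw [← adjoinEquiv_C ht, ← adjoinEquiv_X_pow ht]
  intro h
  have h1 : C π ∣ (X : R[X]) ^ k := (map_dvd_iff (adjoinEquiv ht)).mp h
  have h2 := (C_dvd_iff_dvd_coeff π _).mp h1 k
  rw [coeff_X_pow, if_pos rfl] at h2
  exact hπ.not_isUnit (isUnit_of_dvd_one h2)

end Adjoin

end Fermat.Agent.S28.H41
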