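import Mathlib
import Fermat.Prelude.Def_ModularCurve_X0

/-!
# S28, package M5: transcendence of `j`

`jq` and `j(q^N)` are transcendental over `ℚ` (they have a pole at `q = 0`).
-/

set_option autoImplicit false

namespace Fermat.Agent.S28.H41

open ModularCurve Polynomial

/-- `jq` is transcendental over `ℚ`. -/
theorem transcendental_jq : Transcendental ℚ jq := by
  intro halg
  obtain ⟨p, hp0, hp⟩ := halg
  have h1 : (aeval jq p).coeff (-(p.natDegree : ℤ)) = p.leadingCoeff := by
    rw [aeval_eq_sum_range, ← HahnSeries.coeff.addMonoidHom_apply, map_sum,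
      Finset.sum_range_succ]
    simp only [HahnSeries.coeff.addMonoidHom_apply, Algebra.smul_def, algebraMap_apply_eq_single,
      HahnSeries.coeff_single_zero_mul]
    rw [coeff_jq_pow_self, mul_one, Finset.sum_eq_zero, zero_add]
    · rfl
    · intro i hi
      rw [coeff_jq_pow_of_lt (by have := Finset.mem_range.mp hi; omega), mul_zero]
  rw [hp, HahnSeries.coeff_zero] at h1
  exact hp0 (leadingCoeff_eq_zero.mp h1.symm)

/-- `j(q^N)` is transcendental over `ℚ`. -/
theorem transcendental_jqN (N : ℕ) [NeZero N] : Transcendental ℚ (qExpand ℚ N jq) := by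
  intro halg
  have h1 : IsAlgebraic ℚ (qExpandₐ N jq) := halg
  exact transcendental_jq
    ((isAlgebraic_algHom_iff (qExpandₐ N) (qExpand_injective N)).mp h1)

end Fermat.Agent.S28.H41
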