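import Mathlib

/-!
# S28, package M5 (abstract core): a `q`-expansion principle from degree bounds

Let `A` be an integrally closed domain, `π` a prime element of `A`, and `F` a field containing `A`.

* `isIntegral_of_smul_isIntegral` (KL): if `π ∤ s` and both `π • y` and `s • y` are integral over
  `A`, then `y` is integral over `A`.
* `exists_isIntegral_smul_eq` (ABS): let `P` be a sub-`A`-module of `F`.  If any `n + 1` elements of
  `F` are linearly dependent over `A`, and there are `n` integral elements `m i` which are linearly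
  independent modulo `P` over `A / π` (a relation `∑ a i • m i ∈ P` forces `π ∣ a i`), then every
  integral `x ∈ P` is `π • y` with `y` integral.
-/

set_option autoImplicit false

namespace Fermat.Agent.S28.H41

open Polynomial

section ScaledMinpoly

variable {K F : Type*} [Field K] [Field F] [Algebra K F]

/-- The minimal polynomial of `c • y` is the minimal polynomial of `y` with roots scaled by `c`. -/
theorem minpoly_smul_eq_scaleRoots {c : K} (hc : c ≠ 0) {y : F} (hy : IsIntegral K y) :
    minpoly K (c • y) = (minpoly K y).scaleRoots c := by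
  symm
  refine minpoly.unique K (c • y) ?_ ?_ ?_
  · exact (monic_scaleRoots_iff c).mpr (minpoly.monic hy)
  · rw [Algebra.smul_def]
    exact scaleRoots_aeval_eq_zero (minpoly.aeval K y)
  · intro q hq hq0
    rw [degree_scaleRoots]
    have h1 : aeval y (q.scaleRoots c⁻¹) = 0 := by
      have h2 := scaleRoots_aeval_eq_zero (r := c⁻¹) hq0
      rwa [Algebra.smul_def, ← mul_assoc, ← map_mul, inv_mul_cancel₀ hc, map_one, one_mul] at h2
    have h3 := minpoly.min K y ((monic_scaleRoots_iff c⁻¹).mpr hq) h1
    rwa [degree_scaleRoots] at h3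

end ScaledMinpoly

section KL

variable {A K F : Type*} [CommRing A] [IsDomain A] [IsIntegrallyClosed A] [Field K] [Algebra A K]
  [IsFractionRing A K] [Field F] [Algebra A F] [Algebra K F] [IsScalarTower A K F]

/-- (KL), with an explicit fraction field `K` of `A` inside `F`. -/
theorem isIntegral_of_smul_isIntegral_aux (K : Type*) [Field K] [Algebra A K]
    [IsFractionRing A K] [Algebra K F] [IsScalarTower A K F] {π s : A} (hπ : Prime π)
    (hs : ¬ π ∣ s) {y : F} (h1 : IsIntegral A (π • y)) (h2 : IsIntegral A (s • y)) :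
    IsIntegral A y := by
  classical
  have hπ0 : π ≠ 0 := hπ.ne_zero
  have hs0 : s ≠ 0 := fun h => hs (h ▸ dvd_zero π)
  have hπK : algebraMap A K π ≠ 0 := by
    rw [Ne, map_eq_zero_iff _ (IsFractionRing.injective A K)]; exact hπ0
  -- `y` is algebraic over `K`
  have hyK : IsIntegral K y := by
    have h3 : IsIntegral K (π • y) := h1.tower_top
    have h4 : y = (algebraMap A K π)⁻¹ • (π • y) := by
      rw [← IsScalarTower.algebraMap_smul K π y, smul_smul, inv_mul_cancel₀ hπK, one_smul]
    rw [h4]
    exact h3.smul _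
  -- coefficients of the scaled minimal polynomials lie in `A`
  have key : ∀ (c : A), c ≠ 0 → IsIntegral A (c • y) → ∀ i,
      ∃ u : A, (minpoly K y).coeff i * algebraMap A K c ^ ((minpoly K y).natDegree - i) =
        algebraMap A K u := by
    intro c hc hcy i
    have hcK : algebraMap A K c ≠ 0 := by
      rw [Ne, map_eq_zero_iff _ (IsFractionRing.injective A K)]; exact hc
    have e1 : minpoly K (c • y) = (minpoly A (c • y)).map (algebraMap A K) :=
      minpoly.isIntegrallyClosed_eq_field_fractions' K hcy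
    have e2 : minpoly K (c • y) = (minpoly K y).scaleRoots (algebraMap A K c) := by
      rw [← IsScalarTower.algebraMap_smul K c y]
      exact minpoly_smul_eq_scaleRoots hcK hyK
    refine ⟨(minpoly A (c • y)).coeff i, ?_⟩
    have e3 := congrArg (fun q : K[X] => q.coeff i) (e2.symm.trans e1)
    simpa [coeff_scaleRoots, coeff_map] using e3
  have hcoeff : ∀ i, ∃ w : A, (minpoly K y).coeff i = algebraMap A K w := by
    intro i
    obtain ⟨u, hu⟩ := key π hπ0 h1 i
    obtain ⟨v, hv⟩ := key s hs0 h2 i
    have e : u * s ^ ((minpoly K y).natDegree - i) = v * π ^ ((minpoly K y).natDegree - i) := by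
      apply IsFractionRing.injective A K
      rw [map_mul, map_mul, map_pow, map_pow, ← hu, ← hv]
      ring
    have hdvd : π ^ ((minpoly K y).natDegree - i) ∣ u :=
      hπ.pow_dvd_of_dvd_mul_right _ (fun h => hs (hπ.dvd_of_dvd_pow h))
        (by rw [e]; exact dvd_mul_left _ _)
    obtain ⟨w, hw⟩ := hdvd
    refine ⟨w, ?_⟩
    have h5 : (minpoly K y).coeff i * algebraMap A K π ^ ((minpoly K y).natDegree - i) =
        algebraMap A K w * algebraMap A K π ^ ((minpoly K y).natDegree - i) := by
      rw [hu, hw, map_mul, map_pow, mul_comm]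
    exact mul_right_cancel₀ (pow_ne_zero _ hπK) h5
  have hlifts : minpoly K y ∈ Polynomial.lifts (algebraMap A K) :=
    (Polynomial.lifts_iff_coeff_lifts _).mpr fun i => by
      obtain ⟨w, hw⟩ := hcoeff i
      exact ⟨w, hw.symm⟩
  obtain ⟨q, hq, -, hqmonic⟩ :=
    Polynomial.lifts_and_natDegree_eq_and_monic hlifts (minpoly.monic hyK)
  refine ⟨q, hqmonic, ?_⟩
  have h6 : aeval y (minpoly K y) = 0 := minpoly.aeval K y
  rw [← hq, aeval_map_algebraMap] at h6
  exact h6

omit [Field K] [Algebra A K] [IsFractionRing A K] [Algebra K F] [IsScalarTower A K F] in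
/-- (KL) If `π` is prime, `π ∤ s`, and `π • y`, `s • y` are integral over the integrally closed
domain `A`, then `y` is integral over `A`. -/
theorem isIntegral_of_smul_isIntegral [FaithfulSMul A F] {π s : A} (hπ : Prime π)
    (hs : ¬ π ∣ s) {y : F} (h1 : IsIntegral A (π • y)) (h2 : IsIntegral A (s • y)) :
    IsIntegral A y := by
  let _ : Algebra (FractionRing A) F := FractionRing.liftAlgebra A F
  exact isIntegral_of_smul_isIntegral_aux (FractionRing A) hπ hs h1 h2

end KL

section Normalize

variable {A : Type*} [CommRing A]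

/-- A nonzero vector over a domain in which `π` has finite multiplicity in some entry is a power of
`π` times a vector not all of whose entries are divisible by `π`. -/
theorem exists_pow_mul_not_forall_dvd {ι : Type*} {π : A} (N : ℕ) :
    ∀ a : ι → A, (∃ i, ¬ π ^ N ∣ a i) →
      ∃ (k : ℕ) (a' : ι → A), (∀ i, a i = π ^ k * a' i) ∧ ¬ ∀ i, π ∣ a' i := by
  induction N with
  | zero =>
    rintro a ⟨i, hi⟩
    exact absurd (by rw [pow_zero]; exact one_dvd _) hi
  | succ N ih =>
    rintro a ⟨i, hi⟩
    by_cases hall : ∀ i, π ∣ a i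
    · choose b hb using hall
      have hb' : ∃ i, ¬ π ^ N ∣ b i := by
        refine ⟨i, fun h => hi ?_⟩
        rw [hb i, pow_succ']
        exact mul_dvd_mul_left π h
      obtain ⟨k, b', hk, hb''⟩ := ih b hb'
      refine ⟨k + 1, b', fun i => ?_, hb''⟩
      rw [hb i, hk i, pow_succ']
      ring
    · exact ⟨0, a, fun i => by rw [pow_zero, one_mul], hall⟩

end Normalize

section ABS

variable {A F : Type*} [CommRing A] [IsDomain A] [IsIntegrallyClosed A] [WfDvdMonoid A] [Field F]
  [Algebra A F] [FaithfulSMul A F]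

/-- (ABS) The abstract `q`-expansion principle. -/
theorem exists_isIntegral_smul_eq {π : A} (hπ : Prime π) (P : Submodule A F) {n : ℕ}
    (hdep : ∀ v : Fin (n + 1) → F, ∃ a : Fin (n + 1) → A, a ≠ 0 ∧ ∑ i, a i • v i = 0)
    (m : Fin n → F) (hm : ∀ i, IsIntegral A (m i))
    (hind : ∀ a : Fin n → A, ∑ i, a i • m i ∈ P → ∀ i, π ∣ a i)
    {x : F} (hx : IsIntegral A x) (hxP : x ∈ P) :
    ∃ y : F, IsIntegral A y ∧ x = π • y := by
  classical
  have hinj : Function.Injective (algebraMap A F) := FaithfulSMul.algebraMap_injective A F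
  have hπ0 : π ≠ 0 := hπ.ne_zero
  have hπF : algebraMap A F π ≠ 0 := by
    rw [Ne, map_eq_zero_iff _ hinj]; exact hπ0
  obtain ⟨a, ha0, hsum⟩ := hdep (Fin.snoc m x)
  -- normalise the relation
  obtain ⟨i₀, hi₀⟩ : ∃ i, a i ≠ 0 := by
    by_contra hcon
    push Not at hcon
    exact ha0 (funext hcon)
  have hfin : FiniteMultiplicity π (a i₀) :=
    FiniteMultiplicity.of_not_isUnit hπ.not_isUnit hi₀
  obtain ⟨N, hN⟩ := hfin
  obtain ⟨k, a', hk, hnot⟩ := exists_pow_mul_not_forall_dvd (π := π) (N + 1) a ⟨i₀, hN⟩
  have hsum' : ∑ i, a' i • (Fin.snoc m x : Fin (n + 1) → F) i = 0 := by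
    have h1 : (π ^ k) • ∑ i, a' i • (Fin.snoc m x : Fin (n + 1) → F) i = 0 := by
      rw [Finset.smul_sum, ← hsum]
      refine Finset.sum_congr rfl fun i _ => ?_
      rw [smul_smul, ← hk i]
    rcases smul_eq_zero.mp h1 with h2 | h2
    · exact absurd h2 (pow_ne_zero k hπ0)
    · exact h2
  rw [Fin.sum_univ_castSucc] at hsum'
  simp only [Fin.snoc_castSucc, Fin.snoc_last] at hsum'
  set b := a' (Fin.last n) with hb
  have hrel : ∑ i : Fin n, a' i.castSucc • m i = -(b • x) := eq_neg_of_add_eq_zero_left hsum'
  have hdvd : ∀ i : Fin n, π ∣ a' i.castSucc := by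
    apply hind
    rw [hrel]
    exact P.neg_mem (P.smul_mem b hxP)
  have hbndvd : ¬ π ∣ b := by
    intro hbd
    apply hnot
    intro i
    refine Fin.lastCases ?_ (fun j => ?_) i
    · exact hbd
    · exact hdvd j
  choose c hc using hdvd
  set z : F := -∑ i : Fin n, c i • m i with hz
  have hzint : IsIntegral A z :=
    (IsIntegral.sum _ fun i _ => (hm i).smul (c i)).neg
  have hbx : b • x = π • z := by
    have h7 : b • x = -∑ i : Fin n, a' i.castSucc • m i := by rw [hrel, neg_neg]
    rw [h7, hz, smul_neg, Finset.smul_sum]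
    congr 1
    refine Finset.sum_congr rfl fun i _ => ?_
    rw [smul_smul, ← hc i]
  set y : F := (algebraMap A F π)⁻¹ * x with hy
  have hπy : π • y = x := by
    rw [hy, Algebra.smul_def, ← mul_assoc, mul_inv_cancel₀ hπF, one_mul]
  have hby : b • y = z := by
    rw [hy, Algebra.smul_def, mul_left_comm, ← Algebra.smul_def, hbx, Algebra.smul_def,
      ← mul_assoc, inv_mul_cancel₀ hπF, one_mul]
  refine ⟨y, ?_, hπy.symm⟩
  exact isIntegral_of_smul_isIntegral hπ hbndvd (hπy ▸ hx) (hby ▸ hzint)

end ABS

end Fermat.Agent.S28.H41
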