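import Mathlib
import Fermat.Prelude.Def_GaloisRep_Flat

/-!
# S28, package M5: the ring `ℤ_(ℓ) = GaloisRep.ratLocalizedAt ℓ`

`ratLocalizedAt ℓ` is the localisation of `ℤ` at the prime `(ℓ)`; hence a discrete valuation ring
(in particular a UFD), and `ℓ` is a prime element of it.
-/

set_option autoImplicit false

namespace Fermat.Agent.S28.H41

open GaloisRep

variable (ℓ : ℕ) [hℓ : Fact ℓ.Prime]

omit hℓ in
theorem intCast_mem_ratLocalizedAt (n : ℤ) : (n : ℚ) ∈ ratLocalizedAt ℓ := by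
  show ((n : ℚ)).den.Coprime ℓ
  simp

theorem inv_intCast_mem_ratLocalizedAt {n : ℤ} (hn : ¬ (ℓ : ℤ) ∣ n) :
    ((n : ℚ))⁻¹ ∈ ratLocalizedAt ℓ := by
  show ((n : ℚ))⁻¹.den.Coprime ℓ
  have hn0 : n ≠ 0 := fun h => hn (h ▸ dvd_zero _)
  rw [Rat.inv_intCast_den, if_neg hn0]
  refine Nat.Coprime.symm ((Nat.Prime.coprime_iff_not_dvd hℓ.out).mpr fun h => hn ?_)
  exact Int.natCast_dvd.mpr h

theorem not_dvd_den_of_mem {x : ℚ} (hx : x ∈ ratLocalizedAt ℓ) : ¬ (ℓ : ℤ) ∣ (x.den : ℤ) := by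
  intro h
  have h1 : ℓ ∣ x.den := Int.natCast_dvd_natCast.mp h
  have h2 : x.den.Coprime ℓ := hx
  have h3 : ℓ ∣ Nat.gcd x.den ℓ := Nat.dvd_gcd h1 dvd_rfl
  rw [h2] at h3
  exact hℓ.out.one_lt.ne' (Nat.dvd_one.mp h3)

/-- The prime ideal `(ℓ)` of `ℤ`. -/
abbrev primeIdeal : Ideal ℤ := Ideal.span {(ℓ : ℤ)}

instance primeIdeal_isPrime : (primeIdeal ℓ).IsPrime :=
  (Ideal.span_singleton_prime (by exact_mod_cast hℓ.out.ne_zero)).mpr
    (Nat.prime_iff_prime_int.mp hℓ.out)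

theorem primeIdeal_ne_bot : primeIdeal ℓ ≠ ⊥ := by
  rw [Ne, Ideal.span_singleton_eq_bot]
  exact_mod_cast hℓ.out.ne_zero

instance isLocalization_ratLocalizedAt :
    IsLocalization.AtPrime ↥(ratLocalizedAt ℓ) (primeIdeal ℓ) := by
  refine (isLocalization_iff _ _).mpr ⟨?_, ?_, ?_⟩
  · rintro ⟨y, hy⟩
    have hy' : ¬ (ℓ : ℤ) ∣ y := fun h => hy (Ideal.mem_span_singleton.mpr h)
    have hy0 : (y : ℚ) ≠ 0 := by
      intro h
      exact hy' (by rw [Int.cast_eq_zero.mp h]; exact dvd_zero _)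
    refine IsUnit.of_mul_eq_one ⟨((y : ℚ))⁻¹, inv_intCast_mem_ratLocalizedAt ℓ hy'⟩ ?_
    apply Subtype.ext
    simp only [eq_intCast, Subring.coe_mul, Subring.coe_intCast, Subring.coe_one]
    exact mul_inv_cancel₀ hy0
  · intro z
    refine ⟨(z.1.num, ⟨(z.1.den : ℤ), ?_⟩), ?_⟩
    · intro h
      exact not_dvd_den_of_mem ℓ z.2 (Ideal.mem_span_singleton.mp h)
    · apply Subtype.ext
      simp only [eq_intCast, Subring.coe_mul, Subring.coe_intCast, Int.cast_natCast]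
      exact Rat.mul_den_eq_num z.1
  · intro x y h
    refine ⟨1, ?_⟩
    have h1 := congrArg Subtype.val h
    simp only [eq_intCast, Subring.coe_intCast] at h1
    rw [Int.cast_injective h1]

instance isDiscreteValuationRing_ratLocalizedAt :
    IsDiscreteValuationRing ↥(ratLocalizedAt ℓ) :=
  IsLocalization.AtPrime.isDiscreteValuationRing_of_dedekind_domain ℤ (primeIdeal_ne_bot ℓ)
    ↥(ratLocalizedAt ℓ)

/-- `ℓ` is a prime element of `ℤ_(ℓ)`. -/
theorem prime_natCast_ratLocalizedAt : Prime ((ℓ : ℕ) : ↥(ratLocalizedAt ℓ)) := by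
  have h0 : ((ℓ : ℕ) : ↥(ratLocalizedAt ℓ)) ≠ 0 := by
    intro h
    have h1 := congrArg Subtype.val h
    simp only [Subring.coe_natCast, Subring.coe_zero, Nat.cast_eq_zero] at h1
    exact hℓ.out.ne_zero h1
  rw [← Ideal.span_singleton_prime h0]
  have h2 := IsLocalization.AtPrime.map_eq_maximalIdeal (primeIdeal ℓ) ↥(ratLocalizedAt ℓ)
  have h3 : Ideal.map (algebraMap ℤ ↥(ratLocalizedAt ℓ)) (primeIdeal ℓ) =
      Ideal.span {((ℓ : ℕ) : ↥(ratLocalizedAt ℓ))} := by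
    rw [primeIdeal, Ideal.map_span, Set.image_singleton]
    simp
  rw [← h3, h2]
  exact (IsLocalRing.maximalIdeal.isMaximal _).isPrime

end Fermat.Agent.S28.H41
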