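import Mathlib
import Fermat.Prelude.Def_ModularCurve_IgusaScheme
import Fermat.Agent.S28.H41.QEPAbstract
import Fermat.Agent.S28.H41.Zl
import Fermat.Agent.S28.H41.Adjoin
import Fermat.Agent.S28.H41.JSeries
import Fermat.Agent.S28.H85.LInt

/-!
# S28, package M5: the `q`-expansion principle for the charts of the Igusa scheme

`qep_fin` : an element of `chartAlgFin N ℓ` all of whose `q`-coefficients are divisible by `ℓ`
(in `ℤ_(ℓ)`) is `ℓ` times an element of `chartAlgFin N ℓ` — from a degree bound in characteristic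
`0` (`hdep`) and a family of integral elements which is independent modulo `ℓ` (`m`, `hind`), both
relative to a polynomial base ring `ℤ_(ℓ)[t]` over which `chartAlgFin N ℓ` is the integral closure.

`qep_inf` : the same statement for `chartAlgInf N ℓ`, as a consequence of `qep_fin`.
-/

set_option autoImplicit false

namespace Fermat.Agent.S28.H41

open ModularCurve ModularCurve.IgusaScheme GaloisRep Polynomial
open Fermat.Agent.S28.H85

section PSet

/-- The Laurent series all of whose coefficients are `ℓ` times an element of `ℤ_(ℓ)`. -/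
def DivSeries (ℓ : ℕ) (f : LaurentSeries ℚ) : Prop :=
  ∀ k : ℤ, ∃ c ∈ ratLocalizedAt ℓ, f.coeff k = ℓ * c

theorem DivSeries.zero (ℓ : ℕ) : DivSeries ℓ 0 := fun k =>
  ⟨0, zero_mem _, by rw [HahnSeries.coeff_zero, mul_zero]⟩

theorem DivSeries.add {ℓ : ℕ} {f g : LaurentSeries ℚ} (hf : DivSeries ℓ f) (hg : DivSeries ℓ g) :
    DivSeries ℓ (f + g) := by
  intro k
  obtain ⟨c, hc, h1⟩ := hf k
  obtain ⟨d, hd, h2⟩ := hg k
  exact ⟨c + d, add_mem hc hd, by rw [HahnSeries.coeff_add, h1, h2, mul_add]⟩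

theorem DivSeries.neg {ℓ : ℕ} {f : LaurentSeries ℚ} (hf : DivSeries ℓ f) : DivSeries ℓ (-f) := by
  intro k
  obtain ⟨c, hc, h1⟩ := hf k
  exact ⟨-c, neg_mem hc, by rw [HahnSeries.coeff_neg, h1, mul_neg]⟩

theorem DivSeries.mul_left {ℓ : ℕ} {a f : LaurentSeries ℚ} (ha : a ∈ intSubring ℓ)
    (hf : DivSeries ℓ f) : DivSeries ℓ (a * f) := by
  rw [mem_intSubring_iff] at ha
  choose c hc hfc using hf
  intro k
  refine ⟨∑ ij ∈ Finset.antidiagonal a.isPWO_support f.isPWO_support k,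
    a.coeff ij.1 * c ij.2, ?_, ?_⟩
  · exact Subring.sum_mem _ fun ij _ => Subring.mul_mem _ (ha _) (hc _)
  · rw [HahnSeries.coeff_mul, Finset.mul_sum]
    refine Finset.sum_congr rfl fun ij _ => ?_
    rw [hfc]
    ring

/-- A series divisible by `ℓ` is `ℓ`-integral. -/
theorem DivSeries.mem_intSubring {ℓ : ℕ} {f : LaurentSeries ℚ} (hf : DivSeries ℓ f) :
    f ∈ intSubring ℓ := by
  rw [mem_intSubring_iff]
  intro k
  obtain ⟨c, hc, h1⟩ := hf k
  rw [h1]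
  exact Subring.mul_mem _ (natCast_mem _ ℓ) hc

/-- `ℓ` times an `ℓ`-integral series is divisible by `ℓ`. -/
theorem DivSeries.natCast_mul {ℓ : ℕ} {f : LaurentSeries ℚ} (hf : f ∈ intSubring ℓ) :
    DivSeries ℓ ((ℓ : LaurentSeries ℚ) * f) := by
  rw [mem_intSubring_iff] at hf
  intro k
  refine ⟨f.coeff k, hf k, ?_⟩
  have h1 : ((ℓ : ℕ) : LaurentSeries ℚ) = HahnSeries.single 0 (ℓ : ℚ) := by
    rw [← map_natCast (HahnSeries.C : ℚ →+* LaurentSeries ℚ)]
    rfl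
  rw [h1, HahnSeries.coeff_single_zero_mul]

end PSet

variable (N : ℕ) [NeZero N] (ℓ : ℕ) [Fact ℓ.Prime]

set_option quotPrecheck false in
local notation "ℤℓ" => ↥(GaloisRep.ratLocalizedAt ℓ)

set_option quotPrecheck false in
local notation "F" => ↥(modularFunctionFieldFull N)

/-- `j(q^N)` as an element of the function field. -/
noncomputable def jNFull : F := ⟨qExpand ℚ N jq, jqd_mem_full N dvd_rfl⟩

omit [Fact ℓ.Prime] in
@[simp] theorem coe_jNFull : (jNFull N : LaurentSeries ℚ) = qExpand ℚ N jq := rfl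

omit [Fact ℓ.Prime] in
theorem coe_jNFull_mem_intSubring : (jNFull N : LaurentSeries ℚ) ∈ intSubring ℓ :=
  qExpand_jq_mem_intSubring N

omit [NeZero N] [Fact ℓ.Prime] in
/-- An element of the function field whose `q`-expansion is transcendental over `ℚ` is
transcendental over `ℤ_(ℓ)`. -/
theorem transcendental_of_coe {x : F} (hx : Transcendental ℚ (x : LaurentSeries ℚ)) :
    Transcendental ℤℓ x := by
  rw [transcendental_iff_injective, injective_iff_map_eq_zero]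
  intro p hp
  have h1 : (fullVal N).comp (algebraMap ℤℓ F) =
      (algebraMap ℚ (LaurentSeries ℚ)).comp (algebraMap ℤℓ ℚ) := by
    ext c : 1
    rw [RingHom.comp_apply, RingHom.comp_apply, algebraMap_apply_eq_single]
    exact coe_algebraMap_ratLocalizedAt N c
  have h2 : aeval (x : LaurentSeries ℚ) (p.map (algebraMap ℤℓ ℚ)) = 0 := by
    have h3 : fullVal N (aeval x p) = 0 := by rw [hp, map_zero]
    rw [aeval_def, eval₂_map, ← h1, ← h3, aeval_def]
    exact (hom_eval₂ p (algebraMap ℤℓ F) (fullVal N) x).symm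
  have h4 : p.map (algebraMap ℤℓ ℚ) = 0 :=
    (transcendental_iff_injective.mp hx) (by rw [h2, map_zero])
  exact Polynomial.map_injective _ Subtype.val_injective (by rw [h4, Polynomial.map_zero])

omit [Fact ℓ.Prime] in
theorem transcendental_jFull : Transcendental ℤℓ (jFull N) :=
  transcendental_of_coe N ℓ transcendental_jq

omit [Fact ℓ.Prime] in
theorem transcendental_jNFull : Transcendental ℤℓ (jNFull N) :=
  transcendental_of_coe N ℓ (transcendental_jqN N)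

omit [Fact ℓ.Prime] in
theorem transcendental_jFull_inv : Transcendental ℤℓ (jFull N)⁻¹ := by
  intro halg
  exact transcendental_jFull N ℓ (IsAlgebraic.inv_iff.mp halg)

omit [NeZero N] [Fact ℓ.Prime] in
theorem coe_mem_intSubring_of_mem_adjoin_singleton {t : F}
    (ht : (t : LaurentSeries ℚ) ∈ intSubring ℓ) {a : F} (ha : a ∈ Algebra.adjoin ℤℓ {t}) :
    (a : LaurentSeries ℚ) ∈ intSubring ℓ :=
  coe_mem_intSubring_of_mem_adjoin N
    (fun s hs => by rw [Set.mem_singleton_iff.mp hs]; exact ht) ha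

/-- The `ℤ_(ℓ)[t]`-submodule of the function field consisting of the elements whose `q`-expansion
is divisible by `ℓ`. -/
def divSubmodule {t : F} (ht : (t : LaurentSeries ℚ) ∈ intSubring ℓ) :
    @Submodule ↥(Algebra.adjoin ℤℓ {t}) F _ _ Algebra.toModule :=
  @Submodule.mk ↥(Algebra.adjoin ℤℓ {t}) F _ _ Algebra.toModule
    { carrier := {x | DivSeries ℓ (x : LaurentSeries ℚ)}
      add_mem' := fun hx hy => DivSeries.add hx hy
      zero_mem' := DivSeries.zero ℓ }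
    (fun a _ hx =>
      DivSeries.mul_left (coe_mem_intSubring_of_mem_adjoin_singleton N ℓ ht a.2) hx)

omit [NeZero N] [Fact ℓ.Prime] in
theorem mem_divSubmodule {t : F} (ht : (t : LaurentSeries ℚ) ∈ intSubring ℓ) {x : F} :
    x ∈ divSubmodule N ℓ ht ↔ DivSeries ℓ (x : LaurentSeries ℚ) := Iff.rfl

/-- **QEP for the finite chart**, relative to a polynomial base ring `ℤ_(ℓ)[t]` over which
`chartAlgFin N ℓ` is the integral closure. -/
theorem qep_fin_of_transcendental {t : F} (htr : Transcendental ℤℓ t)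
    (htint : (t : LaurentSeries ℚ) ∈ intSubring ℓ)
    (hiff : ∀ x : F, x ∈ chartAlgFin N ℓ ↔ IsIntegral ↥(Algebra.adjoin ℤℓ {t}) x)
    {n : ℕ}
    (hdep : ∀ v : Fin (n + 1) → F, ∃ a : Fin (n + 1) → ↥(Algebra.adjoin ℤℓ {t}),
      a ≠ 0 ∧ ∑ i, a i • v i = 0)
    (hind : ∃ m : Fin n → F, (∀ i, IsIntegral ↥(Algebra.adjoin ℤℓ {t}) (m i)) ∧
      ∀ a : Fin n → ↥(Algebra.adjoin ℤℓ {t}),
        (∀ k : ℤ, ∃ c ∈ GaloisRep.ratLocalizedAt ℓ,
          ((∑ i, a i • m i : F) : LaurentSeries ℚ).coeff k = (ℓ : ℚ) * c) →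
        ∀ i, (ℓ : ↥(Algebra.adjoin ℤℓ {t})) ∣ a i) :
    ∀ x ∈ chartAlgFin N ℓ,
      (∀ k : ℤ, ∃ c ∈ GaloisRep.ratLocalizedAt ℓ, (x : LaurentSeries ℚ).coeff k = ℓ * c) →
      ∃ y ∈ chartAlgFin N ℓ, x = (ℓ : F) * y := by
  classical
  obtain ⟨m, hm, hind⟩ := hind
  intro x hx hxP
  have hufd : UniqueFactorizationMonoid ↥(Algebra.adjoin ℤℓ {t}) :=
    uniqueFactorizationMonoid_adjoin htr
  have hic : IsIntegrallyClosed ↥(Algebra.adjoin ℤℓ {t}) :=
    UniqueFactorizationMonoid.instIsIntegrallyClosed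
  have hπ : Prime (algebraMap ℤℓ ↥(Algebra.adjoin ℤℓ {t}) ((ℓ : ℕ) : ℤℓ)) :=
    prime_algebraMap_adjoin htr (prime_natCast_ratLocalizedAt ℓ)
  have hπeq : algebraMap ℤℓ ↥(Algebra.adjoin ℤℓ {t}) ((ℓ : ℕ) : ℤℓ) =
      (ℓ : ↥(Algebra.adjoin ℤℓ {t})) := map_natCast _ _
  rw [hπeq] at hπ
  obtain ⟨y, hy, hxy⟩ := exists_isIntegral_smul_eq hπ (divSubmodule N ℓ htint) hdep m hm
    (fun a ha => hind a ha) ((hiff x).mp hx) hxP
  refine ⟨y, (hiff y).mpr hy, ?_⟩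
  rw [hxy, Algebra.smul_def, map_natCast]

omit [NeZero N] [Fact ℓ.Prime] in
theorem natCast_ne_zero_full (hℓ : ℓ ≠ 0) : ((ℓ : ℕ) : F) ≠ 0 :=
  Nat.cast_ne_zero.mpr hℓ

/-- **QEP for the chart at infinity**, as a consequence of the QEP for the finite chart. -/
theorem qep_inf_of_fin
    (hfin : ∀ x ∈ chartAlgFin N ℓ,
      (∀ k : ℤ, ∃ c ∈ GaloisRep.ratLocalizedAt ℓ, (x : LaurentSeries ℚ).coeff k = ℓ * c) →
      ∃ y ∈ chartAlgFin N ℓ, x = (ℓ : F) * y) :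
    ∀ x ∈ chartAlgInf N ℓ,
      (∀ k : ℤ, ∃ c ∈ GaloisRep.ratLocalizedAt ℓ, (x : LaurentSeries ℚ).coeff k = ℓ * c) →
      ∃ y ∈ chartAlgInf N ℓ, x = (ℓ : F) * y := by
  classical
  intro x hx hxP
  have hℓ0 : ((ℓ : ℕ) : F) ≠ 0 := natCast_ne_zero_full N ℓ (Fact.out : ℓ.Prime).ne_zero
  have hj0 : jFull N ≠ 0 := jFull_ne_zero N
  -- step 1: multiply into the finite chart
  have hx' : x ∈ chartAlg N ℓ (insert (jFull N)⁻¹ {jFull N}) :=
    chartAlg_mono N ℓ (Set.singleton_subset_iff.mpr (Set.mem_insert _ _)) hx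
  obtain ⟨n, hn⟩ := exists_pow_mul_mem_chartAlg (Set.mem_singleton (jFull N)) hj0 hx'
  have hnP : ∀ k : ℤ, ∃ c ∈ GaloisRep.ratLocalizedAt ℓ,
      ((jFull N ^ n * x : F) : LaurentSeries ℚ).coeff k = ℓ * c := by
    have h1 : ((jFull N ^ n * x : F) : LaurentSeries ℚ) = jq ^ n * (x : LaurentSeries ℚ) := rfl
    rw [h1]
    exact DivSeries.mul_left (Subring.pow_mem _ jq_mem_intSubring n) hxP
  obtain ⟨y₁, hy₁, hxy₁⟩ := hfin _ hn hnP
  -- step 2: come back to the chart at infinity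
  have hy₁' : y₁ ∈ chartAlg N ℓ (insert ((jFull N)⁻¹)⁻¹ {(jFull N)⁻¹}) := by
    rw [inv_inv]
    exact chartAlg_mono N ℓ (Set.singleton_subset_iff.mpr (Set.mem_insert _ _)) hy₁
  obtain ⟨k, hk⟩ := exists_pow_mul_mem_chartAlg (Set.mem_singleton ((jFull N)⁻¹))
    (inv_ne_zero hj0) hy₁'
  set y : F := ((ℓ : ℕ) : F)⁻¹ * x with hy
  have hxy : x = ((ℓ : ℕ) : F) * y := by
    rw [hy, ← mul_assoc, mul_inv_cancel₀ hℓ0, one_mul]
  have hyy₁ : jFull N ^ n * y = y₁ := by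
    apply mul_left_cancel₀ hℓ0
    rw [← hxy₁, hy]
    field_simp
  have hjinv : (jFull N)⁻¹ ∈ chartAlgInf N ℓ :=
    subset_chartAlg N ℓ {(jFull N)⁻¹} (Set.mem_singleton _)
  have hky : (jFull N)⁻¹ ^ k * y ∈ chartAlgInf N ℓ := by
    have h0 : (jFull N)⁻¹ ^ n * jFull N ^ n = 1 := by
      rw [inv_pow, inv_mul_cancel₀ (pow_ne_zero n hj0)]
    have h1 : (jFull N)⁻¹ ^ k * y = (jFull N)⁻¹ ^ n * ((jFull N)⁻¹ ^ k * y₁) := by
      rw [← hyy₁]
      calc (jFull N)⁻¹ ^ k * y = ((jFull N)⁻¹ ^ n * jFull N ^ n) * ((jFull N)⁻¹ ^ k * y) := by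
            rw [h0, one_mul]
        _ = (jFull N)⁻¹ ^ n * ((jFull N)⁻¹ ^ k * (jFull N ^ n * y)) := by ring
    rw [h1]
    exact Subalgebra.mul_mem _ (Subalgebra.pow_mem _ hjinv n) hk
  refine ⟨y, ?_, hxy⟩
  -- step 3: `ℓ * y` and `j⁻¹ ^ k * y` are integral over `ℤ_(ℓ)[j⁻¹]`, hence so is `y`
  have htr : Transcendental ℤℓ (jFull N)⁻¹ := transcendental_jFull_inv N ℓ
  have hufd : UniqueFactorizationMonoid ↥(Algebra.adjoin ℤℓ {(jFull N)⁻¹}) :=
    uniqueFactorizationMonoid_adjoin htr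
  have hic : IsIntegrallyClosed ↥(Algebra.adjoin ℤℓ {(jFull N)⁻¹}) :=
    UniqueFactorizationMonoid.instIsIntegrallyClosed
  have hπ : Prime (algebraMap ℤℓ ↥(Algebra.adjoin ℤℓ {(jFull N)⁻¹}) ((ℓ : ℕ) : ℤℓ)) :=
    prime_algebraMap_adjoin htr (prime_natCast_ratLocalizedAt ℓ)
  have hs := not_algebraMap_dvd_gen_pow htr (prime_natCast_ratLocalizedAt ℓ) k
  rw [mem_chartAlg_iff]
  refine isIntegral_of_smul_isIntegral hπ hs ?_ ?_
  · have h2 : algebraMap ℤℓ ↥(Algebra.adjoin ℤℓ {(jFull N)⁻¹}) ((ℓ : ℕ) : ℤℓ) • y = x := by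
      rw [hxy, Algebra.smul_def, map_natCast, map_natCast]
    rw [h2]
    exact hx
  · exact hky

/-- If `j` is integral over `ℤ_(ℓ)[t]` and `t` is integral over `ℤ_(ℓ)[j]`, then the finite chart
algebra is the integral closure of `ℤ_(ℓ)[t]`. -/
theorem mem_chartAlgFin_iff_of_isIntegral {t : F}
    (h1 : IsIntegral ↥(Algebra.adjoin ℤℓ {t}) (jFull N))
    (h2 : IsIntegral ↥(Algebra.adjoin ℤℓ {jFull N}) t) (x : F) :
    x ∈ chartAlgFin N ℓ ↔ IsIntegral ↥(Algebra.adjoin ℤℓ {t}) x := by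
  rw [mem_chartAlg_iff]
  constructor
  · exact isIntegral_adjoin_of_forall_isIntegral
      (fun s hs => by rw [Set.mem_singleton_iff.mp hs]; exact h1)
  · exact isIntegral_adjoin_of_forall_isIntegral
      (fun s hs => by rw [Set.mem_singleton_iff.mp hs]; exact h2)

/-- **QEP for the finite chart** from: the two integrality statements between `j` and `j(q^N)`,
the degree bound in characteristic `0` (`hdep`), and a family independent modulo `ℓ` (`hind`). -/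
theorem qep_fin
    (hint1 : IsIntegral ↥(Algebra.adjoin ℤℓ {jNFull N}) (jFull N))
    (hint2 : IsIntegral ↥(Algebra.adjoin ℤℓ {jFull N}) (jNFull N))
    {n : ℕ}
    (hdep : ∀ v : Fin (n + 1) → F, ∃ a : Fin (n + 1) → ↥(Algebra.adjoin ℤℓ {jNFull N}),
      a ≠ 0 ∧ ∑ i, a i • v i = 0)
    (hind : ∃ m : Fin n → F, (∀ i, IsIntegral ↥(Algebra.adjoin ℤℓ {jNFull N}) (m i)) ∧
      ∀ a : Fin n → ↥(Algebra.adjoin ℤℓ {jNFull N}),
        (∀ k : ℤ, ∃ c ∈ GaloisRep.ratLocalizedAt ℓ,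
          ((∑ i, a i • m i : F) : LaurentSeries ℚ).coeff k = (ℓ : ℚ) * c) →
        ∀ i, (ℓ : ↥(Algebra.adjoin ℤℓ {jNFull N})) ∣ a i) :
    ∀ x ∈ chartAlgFin N ℓ,
      (∀ k : ℤ, ∃ c ∈ GaloisRep.ratLocalizedAt ℓ, (x : LaurentSeries ℚ).coeff k = ℓ * c) →
      ∃ y ∈ chartAlgFin N ℓ, x = (ℓ : F) * y :=
  qep_fin_of_transcendental N ℓ (transcendental_jNFull N ℓ) (coe_jNFull_mem_intSubring N ℓ)
    (mem_chartAlgFin_iff_of_isIntegral N ℓ hint1 hint2) hdep hind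

/-- **QEP for the chart at infinity**, from the same hypotheses. -/
theorem qep_inf
    (hint1 : IsIntegral ↥(Algebra.adjoin ℤℓ {jNFull N}) (jFull N))
    (hint2 : IsIntegral ↥(Algebra.adjoin ℤℓ {jFull N}) (jNFull N))
    {n : ℕ}
    (hdep : ∀ v : Fin (n + 1) → F, ∃ a : Fin (n + 1) → ↥(Algebra.adjoin ℤℓ {jNFull N}),
      a ≠ 0 ∧ ∑ i, a i • v i = 0)
    (hind : ∃ m : Fin n → F, (∀ i, IsIntegral ↥(Algebra.adjoin ℤℓ {jNFull N}) (m i)) ∧
      ∀ a : Fin n → ↥(Algebra.adjoin ℤℓ {jNFull N}),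
        (∀ k : ℤ, ∃ c ∈ GaloisRep.ratLocalizedAt ℓ,
          ((∑ i, a i • m i : F) : LaurentSeries ℚ).coeff k = (ℓ : ℚ) * c) →
        ∀ i, (ℓ : ↥(Algebra.adjoin ℤℓ {jNFull N})) ∣ a i) :
    ∀ x ∈ chartAlgInf N ℓ,
      (∀ k : ℤ, ∃ c ∈ GaloisRep.ratLocalizedAt ℓ, (x : LaurentSeries ℚ).coeff k = ℓ * c) →
      ∃ y ∈ chartAlgInf N ℓ, x = (ℓ : F) * y :=
  qep_inf_of_fin N ℓ (qep_fin N ℓ hint1 hint2 hdep hind)

end Fermat.Agent.S28.H41
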