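import Mathlib
import Fermat.Prelude.Def_ModularCurve_IgusaScheme
import Fermat.Prelude.Def_ModularCurve_X0ModL
import Fermat.Agent.S28.H41.QEP
import Fermat.Agent.S28.H66.Dep
import Fermat.Agent.S28.H66.IntF
import Fermat.Agent.S28.H85.Red

/-!
# S28, package M5: final assembly

From the bridges (C2), (C3) of helper66 (`H66/IntF.lean`, `H66/Dep.lean`), the reduction hom of
helper85 (`H85/Red.lean`) and the `q`-expansion principle of `H41/QEP.lean`:
the skeleton statement `exists_red_chartAlg`, given the bridge (C4) (a family of integral elements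
which is independent modulo `ℓ`) as a hypothesis.
-/

set_option autoImplicit false

namespace Fermat.Agent.S28.H41

open ModularCurve ModularCurve.IgusaScheme
open Fermat.Agent.S28.H85

variable (N : ℕ) [NeZero N] (ℓ : ℕ) [Fact ℓ.Prime]

set_option quotPrecheck false in
local notation "ℤℓ" => ↥(GaloisRep.ratLocalizedAt ℓ)

set_option quotPrecheck false in
local notation "F" => ↥(modularFunctionFieldFull N)

/-- The `q`-expansion principle for both charts, from the characteristic `0` degree `≤ n` and a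
family of `n` integral elements which is independent modulo `ℓ` over `ℤ_(ℓ)[j(q^N)]`. -/
theorem qep_of_indep (hmod : HasModPolys) {n : ℕ}
    (hdeg : 0 < IntermediateField.relfinrank (IntermediateField.adjoin ℚ {jqN N})
        (modularFunctionFieldFull N) ∧
      IntermediateField.relfinrank (IntermediateField.adjoin ℚ {jqN N})
        (modularFunctionFieldFull N) ≤ n)
    (hind : ∃ m : Fin n → F, (∀ i, IsIntegral ↥(Algebra.adjoin ℤℓ {H66.jNFull N}) (m i)) ∧
      ∀ a : Fin n → ↥(Algebra.adjoin ℤℓ {H66.jNFull N}),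
        (∀ k : ℤ, ∃ c ∈ GaloisRep.ratLocalizedAt ℓ,
          ((∑ i, a i • m i : F) : LaurentSeries ℚ).coeff k = (ℓ : ℚ) * c) →
        ∀ i, (ℓ : ↥(Algebra.adjoin ℤℓ {H66.jNFull N})) ∣ a i) :
    (∀ x ∈ chartAlgFin N ℓ,
      (∀ k : ℤ, ∃ c ∈ GaloisRep.ratLocalizedAt ℓ, (x : LaurentSeries ℚ).coeff k = ℓ * c) →
      ∃ y ∈ chartAlgFin N ℓ, x = (ℓ : F) * y) ∧
    (∀ x ∈ chartAlgInf N ℓ,
      (∀ k : ℤ, ∃ c ∈ GaloisRep.ratLocalizedAt ℓ, (x : LaurentSeries ℚ).coeff k = ℓ * c) →
      ∃ y ∈ chartAlgInf N ℓ, x = (ℓ : F) * y) := by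
  have htr : Transcendental ℤℓ (H66.jNFull N) :=
    transcendental_of_coe N ℓ (transcendental_jqN N)
  have htint : ((H66.jNFull N : F) : LaurentSeries ℚ) ∈ intSubring ℓ :=
    qExpand_jq_mem_intSubring N
  have hfin := qep_fin_of_transcendental N ℓ htr htint
    (H66.mem_chartAlgFin_iff_isIntegral N ℓ hmod)
    (fun v => H66.exists_dep_of_relfinrank_le N ℓ hdeg v) hind
  exact ⟨hfin, qep_inf_of_fin N ℓ hfin⟩

/-- **M5** (skeleton statement `exists_red_chartAlg`), given the bridge (C4) as a hypothesis. -/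
theorem exists_red_chartAlg_of_indep (hmod : HasModPolys)
    (hdeg : 0 < IntermediateField.relfinrank (IntermediateField.adjoin ℚ {jqN N})
        (modularFunctionFieldFull N) ∧
      IntermediateField.relfinrank (IntermediateField.adjoin ℚ {jqN N})
        (modularFunctionFieldFull N) ≤
      IntermediateField.relfinrank
        (IntermediateField.adjoin (ZMod ℓ) {jqNModC (ZMod ℓ) N})
        (modularFunctionFieldFullC (ZMod ℓ) N))
    (hC4 : ∀ {n : ℕ}, n ≤ IntermediateField.relfinrank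
        (IntermediateField.adjoin (ZMod ℓ) {jqNModC (ZMod ℓ) N})
        (modularFunctionFieldFullC (ZMod ℓ) N) →
      ∃ m : Fin n → F, (∀ i, IsIntegral ↥(Algebra.adjoin ℤℓ {H66.jNFull N}) (m i)) ∧
        ∀ a : Fin n → ↥(Algebra.adjoin ℤℓ {H66.jNFull N}),
          (∀ k : ℤ, ∃ c ∈ GaloisRep.ratLocalizedAt ℓ,
            ((∑ i, a i • m i : F) : LaurentSeries ℚ).coeff k = (ℓ : ℚ) * c) →
          ∀ i, (ℓ : ↥(Algebra.adjoin ℤℓ {H66.jNFull N})) ∣ a i)
    (S : Set ↥(modularFunctionFieldFull N)) (hS : S = {jFull N} ∨ S = {(jFull N)⁻¹}) :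
    ∃ red : ↥(chartAlg N ℓ S) →+* LaurentSeries (ZMod ℓ),
      ∀ x, red x = 0 → ∃ y, x = (ℓ : ↥(chartAlg N ℓ S)) * y := by
  obtain ⟨hfin, hinf⟩ := qep_of_indep N ℓ hmod ⟨hdeg.1, le_rfl⟩ (hC4 hdeg.2)
  rcases hS with rfl | rfl
  · exact exists_red_of_qep ℓ N (hS_fin N) hfin
  · exact exists_red_of_qep ℓ N (hS_inf N) hinf

end Fermat.Agent.S28.H41
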